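import Fermat.Agent.S55.G.Spec1b
import Fermat.Agent.S55.T.ClassModuleOfCyclicH53

/-!
# S55, layer G, leaf G-CYCp (helper834): `CyclicPowSpec`

`cyclicPow_of : PClassUpperSpec → FirstInequalityCycSpec → CyclicPowSpec`.

For a cyclic `p`-group `G` (`p` odd) acting faithfully on `L`, unramified outside `S ∋ p`, with
`μ_p ⊂ L^G`: `H¹(G, C_S(L)) = 0` by the upper bound `PClassUpperSpec` (at `H = ⊤`), and then the
first inequality for cyclic groups of odd order gives `|H²(G, C_S(L))| = |G| · |H¹| = |G|`.

Only the vanishing of `H¹` is used from `PClassUpperSpec`; see `cyclicPow_of_h1`.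
-/

set_option autoImplicit false
set_option linter.style.haveILetI false

open scoped NumberField TensorProduct
open IsDedekindDomain CategoryTheory groupCohomology

noncomputable section

namespace Fermat.Agent.S55.G.CycPowH834

open Fermat.Agent.S55.G Fermat.Agent.S55.T

/-- The cardinality of a zero object of `ModuleCat` is `1`. -/
theorem card_eq_one_of_isZero {k : Type} [CommRing k] {M : ModuleCat.{0} k}
    (h : Limits.IsZero M) : Nat.card M = 1 := by
  haveI : Subsingleton M := ModuleCat.subsingleton_of_isZero h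
  exact Nat.card_unique

/-- A finite `p`-group with `p` odd has odd order. -/
theorem odd_card_of_isPGroup {p : ℕ} [hp : Fact p.Prime] (hp2 : p ≠ 2) {G : Type} [Group G]
    [Finite G] (hG : IsPGroup p G) : Odd (Nat.card G) := by
  obtain ⟨n, hn⟩ := IsPGroup.iff_card.mp hG
  rw [hn]
  exact (hp.out.odd_of_ne_two hp2).pow

/-- **G-CYCp**, from the vanishing of `H¹` and the first inequality for cyclic groups of odd
order. -/
theorem cyclicPow_of_h1 (hFI : FirstInequalityCycSpec)
    (hH1 : ∀ (p : ℕ) [hp : Fact p.Prime], p ≠ 2 →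
      ∀ (S : Finset Nat.Primes) (G L : Type) [Group G] [Finite G] [IsCyclic G] [Field L]
        [NumberField L] [MulSemiringAction G L] [FaithfulSMul G L],
        (⟨p, hp.out⟩ : Nat.Primes) ∈ S → IsPGroup p G → IsUnramOut S G L →
        HasFixedRootOfUnity p G L →
        Limits.IsZero (groupCohomology (CRep S G L) 1)) :
    CyclicPowSpec := by
  intro p hp hp2 S G L _ _ _ _ _ _ _ hpS hG hur hζ
  have hz := hH1 p hp2 S G L hpS hG hur hζ
  refine ⟨hz, ?_⟩
  obtain ⟨-, -, hcard⟩ := hFI (Nat.card G) (odd_card_of_isPGroup hp2 hG) S G L ⟨_, hpS⟩ rfl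
  rw [hcard, card_eq_one_of_isZero hz, mul_one]

/-- **G-CYCp** : `PClassUpperSpec → FirstInequalityCycSpec → CyclicPowSpec`. -/
theorem cyclicPow_of (hUP : PClassUpperSpec) (hFI : FirstInequalityCycSpec) :
    CyclicPowSpec := by
  refine cyclicPow_of_h1 hFI ?_
  intro p hp hp2 S G L _ _ _ _ _ _ _ hpS hG hur hζ
  obtain ⟨h1, -⟩ := hUP p hp2 S G L hpS hG hur hζ ⊤
  exact h1.of_iso (H53.topIso (CRep S G L) 1).symm

end Fermat.Agent.S55.G.CycPowH834
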